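import Fermat.Agent.RothDiscrepancy.Sequences

/-!
# Schmidt's theorem on irregularities of distribution

Halász's proof: with `F r` the sum of the Haar products over the empty boxes of one shape, the
Riesz product `∏ (1 + γ F r)` is nonnegative of mean one, and against the discrepancy function
its linear part outweighs the products of several factors, which live on finer boxes.
-/

set_option autoImplicit false

noncomputable section

open MeasureTheory Finset Filter

namespace FA.RothDiscrepancy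

theorem floor_eq_of_haar_ne_zero {k a : ℕ} {x : ℝ} (h : haar k a x ≠ 0) :
    ⌊x * 2 ^ k⌋ = (a : ℤ) := by
  have hb : ⌊x * 2 ^ (k + 1)⌋ = 2 * (a : ℤ) ∨ ⌊x * 2 ^ (k + 1)⌋ = 2 * (a : ℤ) + 1 := by
    by_contra hc
    rw [not_or] at hc
    exact h (by rw [haar, if_neg hc.1, if_neg hc.2])
  rw [show x * 2 ^ k = x * 2 ^ (k + 1) / ((2 : ℕ) : ℝ) by push_cast; ring, Int.floor_div_natCast]
  push_cast
  omega

theorem eq_of_haar_ne_zero {k a b : ℕ} {x : ℝ} (ha : haar k a x ≠ 0) (hb : haar k b x ≠ 0) :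
    a = b := by
  by_contra hab
  exact mul_ne_zero ha hb (haar_mul_haar_same hab x)

theorem floor_eq_of_le {k l : ℕ} (hkl : k ≤ l) {x y : ℝ} (h : ⌊x * 2 ^ l⌋ = ⌊y * 2 ^ l⌋) :
    ⌊x * 2 ^ k⌋ = ⌊y * 2 ^ k⌋ := by
  have e : ∀ z : ℝ, z * 2 ^ k = z * 2 ^ l / ((2 ^ (l - k) : ℕ) : ℝ) := fun z => by
    rw [Nat.cast_pow, Nat.cast_ofNat, eq_div_iff (by positivity), mul_assoc, ← pow_add,
      Nat.add_sub_cancel' hkl]
  rw [e x, e y, Int.floor_div_natCast, Int.floor_div_natCast, h]

/-- The left end of a dyadic cell. -/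
def cellPoint (k a : ℕ) : ℝ := (a : ℝ) / 2 ^ k

theorem floor_cellPoint (k a : ℕ) : ⌊cellPoint k a * 2 ^ k⌋ = (a : ℤ) := by
  rw [cellPoint, div_mul_cancel₀ _ (by positivity), Int.floor_natCast]

theorem haar_cellPoint (k a : ℕ) : haar k a (cellPoint k a) = 1 := by
  rw [haar, if_pos]
  rw [cellPoint, pow_succ, ← mul_assoc, div_mul_cancel₀ _ (by positivity),
    show (a : ℝ) * 2 = (((2 * a : ℕ) : ℤ) : ℝ) by push_cast; ring, Int.floor_intCast]
  push_cast
  rfl

/-- Coarser Haar functions are constant where a finer one lives. -/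
theorem haar_mul_haar_cellPoint {k l a b : ℕ} (hkl : k < l) (x : ℝ) :
    haar k a x * haar l b x = haar k a (cellPoint l b) * haar l b x := by
  have h := haar_mul_haar_eq (a := a) (b := b) hkl (cellPoint l b)
  rw [haar_cellPoint, mul_one, mul_one] at h
  rw [h]
  exact haar_mul_haar_eq hkl x

variable {N : ℕ}

/-- The empty boxes of one shape. -/
def boxesOf (n : ℕ) (P : Fin N → ℝ × ℝ) (r : ℕ) : Finset (ℕ × ℕ × ℕ) :=
  (emptyBoxes n P).filter fun t => t.1 = r

/-- The sum of the Haar products over the empty boxes of one shape. -/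
def layer (n : ℕ) (P : Fin N → ℝ × ℝ) (r : ℕ) (q : ℝ × ℝ) : ℝ :=
  ∑ t ∈ boxesOf n P r, boxFun n t q

theorem mem_boxesOf {n : ℕ} {P : Fin N → ℝ × ℝ} {r : ℕ} {t : ℕ × ℕ × ℕ} (ht : t ∈ boxesOf n P r) :
    t.1 = r ∧ t.2.1 < 2 ^ t.1 ∧ t.2.2 < 2 ^ (n - t.1) ∧
      ∀ i, ¬(⌊(P i).1 * 2 ^ t.1⌋ = (t.2.1 : ℤ) ∧ ⌊(P i).2 * 2 ^ (n - t.1)⌋ = (t.2.2 : ℤ)) := by
  simp only [boxesOf, emptyBoxes, mem_filter] at ht
  exact ⟨ht.2, ht.1.2⟩

theorem abs_layer_le (n : ℕ) (P : Fin N → ℝ × ℝ) (r : ℕ) (q : ℝ × ℝ) : |layer n P r q| ≤ 1 := by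
  classical
  refine (abs_sum_le_sum_abs _ _).trans ?_
  rw [← sum_filter_ne_zero]
  refine (sum_le_card_nsmul _ _ 1 fun t _ => ?_).trans ?_
  · rw [boxFun, abs_mul]
    exact mul_le_one₀ (abs_haar_le _ _ _) (abs_nonneg _) (abs_haar_le _ _ _)
  rw [nsmul_eq_mul, mul_one, Nat.cast_le_one, card_le_one]
  intro t ht u hu
  simp only [mem_filter, ne_eq, abs_eq_zero, boxFun, mul_eq_zero, not_or] at ht hu
  obtain ⟨e1, -⟩ := mem_boxesOf ht.1
  obtain ⟨e2, -⟩ := mem_boxesOf hu.1
  obtain ⟨r₁, a, b⟩ := t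
  obtain ⟨r₂, c, d⟩ := u
  dsimp only at e1 e2 ht hu
  subst e1 e2
  rw [eq_of_haar_ne_zero ht.2.1 hu.2.1, eq_of_haar_ne_zero ht.2.2 hu.2.2]

theorem measurable_boxFun (n : ℕ) (t : ℕ × ℕ × ℕ) : Measurable (boxFun n t) :=
  ((measurable_haar _ _).comp measurable_fst).mul ((measurable_haar _ _).comp measurable_snd)

theorem measurable_layer (n : ℕ) (P : Fin N → ℝ × ℝ) (r : ℕ) : Measurable (layer n P r) :=
  Finset.measurable_sum _ fun t _ => measurable_boxFun n t

/-- The product of the layers `s < u < K`. -/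
def middle (n : ℕ) (P : Fin N → ℝ × ℝ) (s K : ℕ) (q : ℝ × ℝ) : ℝ :=
  ∏ u ∈ Ico (s + 1) K, (1 + layer n P u q / 8)

/-- The Riesz product of Halász. -/
def halaszProduct (n : ℕ) (P : Fin N → ℝ × ℝ) (K : ℕ) (q : ℝ × ℝ) : ℝ :=
  ∏ u ∈ range K, (1 + layer n P u q / 8)

theorem halaszProduct_eq (n : ℕ) (P : Fin N → ℝ × ℝ) (K : ℕ) (q : ℝ × ℝ) :
    halaszProduct n P K q = 1 + ∑ s ∈ range K, layer n P s q / 8 * middle n P s K q := by
  induction K with
  | zero => simp [halaszProduct]
  | succ K ih =>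
    rw [halaszProduct, prod_range_succ, ← halaszProduct, ih, sum_range_succ,
      show middle n P K (K + 1) q = 1 by simp [middle]]
    have e : ∀ s ∈ range K, layer n P s q / 8 * middle n P s (K + 1) q =
        layer n P s q / 8 * middle n P s K q * (1 + layer n P K q / 8) := fun s hs => by
      rw [middle, middle, prod_Ico_succ_top (mem_range.1 hs), mul_assoc]
    rw [sum_congr rfl e, ← sum_mul]
    ring

theorem integrable_of_bounded {g : ℝ × ℝ → ℝ} (hg : Measurable g) {C : ℝ} (hC : ∀ q, |g q| ≤ C) :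
    Integrable g (unitMeasure.prod unitMeasure) :=
  Integrable.of_bound hg.aestronglyMeasurable C (Eventually.of_forall hC)

theorem integrable_discrFun (P : Fin N → ℝ × ℝ) :
    Integrable (discrFun P) (unitMeasure.prod unitMeasure) :=
  ((memLp_two_iff_integrable_sq (measurable_discrFun P).aestronglyMeasurable).2
    (integrable_discrFun_sq P)).integrable one_le_two

/-- Two layers with anything between them live on boxes of the finer shape, all without points. -/
theorem pair_estimate {n : ℕ} (P : Fin N → ℝ × ℝ) {s K : ℕ} (hs : s < K) (hK : K ≤ n) :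
    (∫ q, layer n P s q * layer n P K q * middle n P s K q ∂unitMeasure.prod unitMeasure) = 0 ∧
      |∫ q, layer n P s q * layer n P K q * middle n P s K q * discrFun P q
          ∂unitMeasure.prod unitMeasure| ≤ N / (16 * 2 ^ n) * (9 / 16) ^ (K - s) := by
  classical
  set ν := unitMeasure.prod unitMeasure
  set I := boxesOf n P s ×ˢ boxesOf n P K with hI
  set c : (ℕ × ℕ × ℕ) × (ℕ × ℕ × ℕ) → ℝ × ℝ := fun p =>
    (cellPoint K p.2.2.1, cellPoint (n - s) p.1.2.2) with hc
  set κ : (ℕ × ℕ × ℕ) × (ℕ × ℕ × ℕ) → ℝ := fun p =>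
    haar s p.1.2.1 (c p).1 * haar (n - K) p.2.2.2 (c p).2 with hκ
  set g : (ℕ × ℕ × ℕ) × (ℕ × ℕ × ℕ) → ℝ × ℝ → ℝ := fun p q =>
    haar K p.2.2.1 q.1 * haar (n - s) p.1.2.2 q.2 with hg
  set w : (ℕ × ℕ × ℕ) × (ℕ × ℕ × ℕ) → ℝ := fun p => κ p * middle n P s K (c p) with hw
  have hrep : ∀ q, layer n P s q * layer n P K q * middle n P s K q = ∑ p ∈ I, w p * g p q := by
    intro q
    rw [layer, layer, sum_mul_sum, ← sum_product', ← hI, sum_mul]
    refine sum_congr rfl fun p hp => ?_
    rw [hI, mem_product] at hp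
    obtain ⟨e1, -⟩ := mem_boxesOf hp.1
    obtain ⟨e2, -⟩ := mem_boxesOf hp.2
    have hprod : boxFun n p.1 q * boxFun n p.2 q = κ p * g p q := by
      have h1 := haar_mul_haar_cellPoint (a := p.1.2.1) (b := p.2.2.1) hs q.1
      have h2 := haar_mul_haar_cellPoint (a := p.2.2.2) (b := p.1.2.2)
        (show n - K < n - s by omega) q.2
      simp only [boxFun, hκ, hg, hc, e1, e2]
      linear_combination (haar (n - s) p.1.2.2 q.2 * haar (n - K) p.2.2.2 q.2) * h1 +
        (haar s p.1.2.1 (cellPoint K p.2.2.1) * haar K p.2.2.1 q.1) * h2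
    suffices hkey : middle n P s K q * g p q = middle n P s K (c p) * g p q by
      rw [hprod]
      simp only [hw]
      linear_combination κ p * hkey
    rcases eq_or_ne (g p q) 0 with h0 | h0
    · rw [h0, mul_zero, mul_zero]
    congr 1
    refine prod_congr rfl fun u hu => ?_
    rw [mem_Ico] at hu
    simp only [hg, mul_ne_zero_iff] at h0
    have hx : ∀ a, haar u a q.1 = haar u a (c p).1 := fun a =>
      mul_right_cancel₀ h0.1 (haar_mul_haar_cellPoint (show u < K by omega) q.1)
    have hy : ∀ b, haar (n - u) b q.2 = haar (n - u) b (c p).2 := fun b =>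
      mul_right_cancel₀ h0.2 (haar_mul_haar_cellPoint (show n - u < n - s by omega) q.2)
    simp only [layer]
    congr 2
    refine sum_congr rfl fun t ht => ?_
    simp only [boxFun, (mem_boxesOf ht).1, hx, hy]
  have hgint : ∀ p, Integrable (fun q => g p q) ν := fun p =>
    integrable_of_bounded ((measurable_haar _ _).comp measurable_fst |>.mul
      ((measurable_haar _ _).comp measurable_snd)) (C := 1) fun q => by
        simp only [hg, abs_mul]
        exact mul_le_one₀ (abs_haar_le _ _ _) (abs_nonneg _) (abs_haar_le _ _ _)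
  have hgD : ∀ p, Integrable (fun q => g p q * discrFun P q) ν := fun p =>
    (integrable_discrFun P).bdd_mul (c := 1) (hgint p).aestronglyMeasurable
      (Eventually.of_forall fun q => by
        simp only [hg, Real.norm_eq_abs, abs_mul]
        exact mul_le_one₀ (abs_haar_le _ _ _) (abs_nonneg _) (abs_haar_le _ _ _))
  have hbounds : ∀ p ∈ I, p.2.2.1 < 2 ^ K ∧ p.1.2.2 < 2 ^ (n - s) := fun p hp => by
    rw [hI, mem_product] at hp
    obtain ⟨e1, -, hb, -⟩ := mem_boxesOf hp.1
    obtain ⟨e2, ha, -⟩ := mem_boxesOf hp.2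
    exact ⟨e2 ▸ ha, e1 ▸ hb⟩
  refine ⟨?_, ?_⟩
  · simp only [hrep]
    rw [integral_finsetSum _ fun p _ => (hgint p).const_mul _]
    refine sum_eq_zero fun p hp => ?_
    rw [integral_const_mul, hg,
      integral_prod_mul (fun x => haar K p.2.2.1 x) (fun y => haar (n - s) p.1.2.2 y),
      integral_haar (hbounds p hp).1, zero_mul, mul_zero]
  set m := K + (n - s) with hm
  have hterm : ∀ p ∈ I, κ p ≠ 0 → ∫ q, g p q * discrFun P q ∂ν = -((N : ℝ) / (16 * 4 ^ m)) := by
    intro p hp hne
    obtain ⟨ha, hb⟩ := hbounds p hp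
    have hmem : (K, p.2.2.1, p.1.2.2) ∈ emptyBoxes m P := by
      have hA : 2 ^ K ≤ 2 ^ m := Nat.pow_le_pow_right two_pos (Nat.le_add_right _ _)
      have hB : 2 ^ (n - s) ≤ 2 ^ m := Nat.pow_le_pow_right two_pos (Nat.le_add_left _ _)
      simp only [emptyBoxes, mem_filter, mem_product, mem_range]
      rw [show m - K = n - s by omega]
      refine ⟨⟨by omega, by omega, by omega⟩, ha, hb, fun i ⟨h1, h2⟩ => ?_⟩
      rw [hI, mem_product] at hp
      obtain ⟨e, -, -, hemp⟩ := mem_boxesOf hp.2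
      rw [e] at hemp
      refine hemp i ⟨h1, ?_⟩
      rw [← floor_eq_of_haar_ne_zero (right_ne_zero_of_mul hne)]
      exact floor_eq_of_le (by omega) (h2.trans (floor_cellPoint _ _).symm)
    have h := integral_boxFun_mul_discrFun P hmem
    simpa only [boxFun, hg, show m - K = n - s by omega] using h
  have hwle : ∀ p, |w p| ≤ if κ p = 0 then 0 else (9 / 8 : ℝ) ^ (K - (s + 1)) := fun p => by
    split_ifs with h0
    · simp [hw, h0]
    have hone : |κ p| ≤ 1 := by
      simp only [hκ, abs_mul]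
      exact mul_le_one₀ (abs_haar_le _ _ _) (abs_nonneg _) (abs_haar_le _ _ _)
    rw [hw, abs_mul, middle, abs_prod, ← Nat.card_Ico (s + 1) K, ← prod_const]
    refine (mul_le_of_le_one_left (prod_nonneg fun _ _ => abs_nonneg _) hone).trans
      (prod_le_prod (fun _ _ => abs_nonneg _) fun u _ => ?_)
    rw [abs_le]
    constructor <;> linarith [(abs_le.1 (abs_layer_le n P u (c p))).1,
      (abs_le.1 (abs_layer_le n P u (c p))).2]
  simp only [hrep, sum_mul, mul_assoc]
  rw [integral_finsetSum _ fun p _ => (hgD p).const_mul _]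
  refine (abs_sum_le_sum_abs _ _).trans ?_
  have hle : ∀ p ∈ I, |∫ q, w p * (g p q * discrFun P q) ∂ν| ≤
      if κ p = 0 then 0 else (9 / 8 : ℝ) ^ (K - (s + 1)) * (N / (16 * 4 ^ m)) := fun p hp => by
    rw [integral_const_mul, abs_mul]
    have hwp := hwle p
    split_ifs at hwp ⊢ with h0
    · rw [le_antisymm hwp (abs_nonneg _), zero_mul]
    · rw [hterm p hp h0, abs_neg, abs_of_nonneg (by positivity : (0 : ℝ) ≤ N / (16 * 4 ^ m))]
      exact mul_le_mul_of_nonneg_right hwp (by positivity)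
  refine (sum_le_sum hle).trans ?_
  rw [sum_ite, sum_const_zero, zero_add, sum_const, nsmul_eq_mul]
  have hcard : #(I.filter fun p => ¬κ p = 0) ≤ 2 ^ m := by
    rw [hm, pow_add]
    refine (card_le_card_of_injOn (fun p => (p.2.2.1, p.1.2.2)) (t := range (2 ^ K) ×ˢ
      range (2 ^ (n - s))) (fun p hp => ?_) fun p hp p' hp' hpp => ?_).trans_eq
        (by rw [card_product, card_range, card_range])
    · rw [mem_coe, mem_filter] at hp
      simpa using hbounds p hp.1
    · rw [mem_coe, mem_filter, hI, mem_product] at hp hp'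
      simp only [Prod.mk.injEq] at hpp
      obtain ⟨hp1, hp2⟩ := mul_ne_zero_iff.1 hp.2
      obtain ⟨hp1', hp2'⟩ := mul_ne_zero_iff.1 hp'.2
      simp only [hc, ← hpp.1, ← hpp.2] at hp1 hp2 hp1' hp2'
      have ea := eq_of_haar_ne_zero hp1 hp1'
      have eb := eq_of_haar_ne_zero hp2 hp2'
      have es := (mem_boxesOf hp.1.1).1.trans (mem_boxesOf hp'.1.1).1.symm
      have eK := (mem_boxesOf hp.1.2).1.trans (mem_boxesOf hp'.1.2).1.symm
      exact Prod.ext (Prod.ext es (Prod.ext ea hpp.2)) (Prod.ext eK (Prod.ext hpp.1 eb))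
  refine (mul_le_mul_of_nonneg_right (Nat.cast_le.2 hcard) (by positivity)).trans ?_
  obtain ⟨d, rfl⟩ : ∃ d, K = s + 1 + d := ⟨K - (s + 1), by omega⟩
  rw [show s + 1 + d - (s + 1) = d by omega, show s + 1 + d - s = d + 1 by omega,
    show m = n + (d + 1) by omega,
    show (4 : ℝ) ^ (n + (d + 1)) = 2 ^ (n + (d + 1)) * 2 ^ (n + (d + 1))
      by rw [← mul_pow]; norm_num]
  push_cast
  rw [show (2 : ℝ) ^ (n + (d + 1)) * ((9 / 8) ^ d * (↑N / (16 * (2 ^ (n + (d + 1)) *
      2 ^ (n + (d + 1)))))) = ↑N / (16 * 2 ^ n) * ((9 / 8) ^ d * (1 / 2) ^ (d + 1)) by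
    rw [pow_add _ n, one_div, inv_pow]; field_simp]
  refine mul_le_mul_of_nonneg_left ?_ (by positivity)
  rw [show (1 / 2 : ℝ) ^ (d + 1) = (1 / 2) ^ d * (1 / 2) from pow_succ _ _, ← mul_assoc,
    ← mul_pow, show (9 / 8 : ℝ) * (1 / 2) = 9 / 16 by norm_num, pow_succ]
  exact mul_le_mul_of_nonneg_left (by norm_num) (by positivity)

theorem integral_layer {n : ℕ} (P : Fin N → ℝ × ℝ) (r : ℕ) :
    (∫ q, layer n P r q ∂unitMeasure.prod unitMeasure) = 0 ∧
      (∫ q, layer n P r q * discrFun P q ∂unitMeasure.prod unitMeasure) =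
        -(#(boxesOf n P r) * ((N : ℝ) / (16 * 4 ^ n))) := by
  have hb : ∀ t, Integrable (boxFun n t) (unitMeasure.prod unitMeasure) := fun t =>
    integrable_of_bounded (measurable_boxFun n t) (C := 1) fun q => by
      rw [boxFun, abs_mul]
      exact mul_le_one₀ (abs_haar_le _ _ _) (abs_nonneg _) (abs_haar_le _ _ _)
  have hbD : ∀ t, Integrable (fun q => boxFun n t q * discrFun P q)
      (unitMeasure.prod unitMeasure) := fun t =>
    (integrable_discrFun P).bdd_mul (c := 1) (hb t).aestronglyMeasurable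
      (Eventually.of_forall fun q => by
        rw [boxFun, Real.norm_eq_abs, abs_mul]
        exact mul_le_one₀ (abs_haar_le _ _ _) (abs_nonneg _) (abs_haar_le _ _ _))
  constructor
  · simp only [layer]
    rw [integral_finsetSum _ fun t _ => hb t]
    refine sum_eq_zero fun t ht => ?_
    simp only [boxFun]
    rw [integral_prod_mul (fun x => haar t.1 t.2.1 x) (fun y => haar (n - t.1) t.2.2 y),
      integral_haar (mem_boxesOf ht).2.1, zero_mul]
  · simp only [layer, sum_mul]
    rw [integral_finsetSum _ fun t _ => hbD t,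
      sum_congr (rfl : boxesOf n P r = _) fun t ht =>
        integral_boxFun_mul_discrFun P (mem_filter.1 ht).1, sum_const, nsmul_eq_mul, mul_neg]

theorem sum_nine_sixteenth_le (K : ℕ) : ∑ s ∈ range K, (9 / 16 : ℝ) ^ (K - s) ≤ 9 / 7 := by
  induction K with
  | zero => norm_num
  | succ K ih =>
    rw [sum_range_succ, show K + 1 - K = 1 by omega,
      sum_congr rfl fun s hs => by
        rw [show K + 1 - s = K - s + 1 by rw [mem_range] at hs; omega, pow_succ], ← sum_mul]
    linarith

/-- **Schmidt's theorem.** -/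
theorem exists_log_le_discrFun (hN : 0 < N) (P : Fin N → ℝ × ℝ) :
    ∃ q : ℝ × ℝ, q ∈ Set.Ico (0 : ℝ) 1 ×ˢ Set.Ico (0 : ℝ) 1 ∧
      Real.log N / 8192 ≤ |discrFun P q| := by
  classical
  by_contra hcon
  push Not at hcon
  set ν := unitMeasure.prod unitMeasure
  set n := Nat.log 2 N + 2 with hn
  have hn1 : 2 * N ≤ 2 ^ n := by
    have := Nat.lt_pow_succ_log_self one_lt_two N
    rw [Nat.succ_eq_add_one, pow_succ] at this
    rw [hn, pow_add]
    omega
  have hn2 : 2 ^ n ≤ 4 * N := by
    have := Nat.pow_log_le_self 2 hN.ne'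
    rw [hn, pow_add]
    omega
  set G := halaszProduct n P (n + 1) with hG
  have hpow : ∀ (S : Finset ℕ) q, 0 ≤ ∏ u ∈ S, (1 + layer n P u q / 8) ∧
      ∏ u ∈ S, (1 + layer n P u q / 8) ≤ 2 ^ #S := fun S q => by
    have hf : ∀ u, 0 ≤ 1 + layer n P u q / 8 ∧ 1 + layer n P u q / 8 ≤ 2 := fun u => by
      obtain ⟨u1, u2⟩ := abs_le.1 (abs_layer_le n P u q)
      constructor <;> linarith
    exact ⟨prod_nonneg fun u _ => (hf u).1,
      (prod_le_prod (fun u _ => (hf u).1) fun u _ => (hf u).2).trans_eq (prod_const _)⟩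
  have hmK : ∀ K, Measurable (halaszProduct n P K) := fun K => by
    unfold halaszProduct
    exact Finset.measurable_prod _ fun u _ =>
      measurable_const.add ((measurable_layer n P u).div_const _)
  have hmM : ∀ s K, Measurable (middle n P s K) := fun s K => by
    unfold middle
    exact Finset.measurable_prod _ fun u _ =>
      measurable_const.add ((measurable_layer n P u).div_const _)
  have hFG : ∀ s K, Measurable (fun q => layer n P s q * layer n P K q * middle n P s K q) ∧
      ∀ q, |layer n P s q * layer n P K q * middle n P s K q| ≤ 2 ^ K := fun s K =>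
    ⟨((measurable_layer n P s).mul (measurable_layer n P K)).mul (hmM s K), fun q => by
      obtain ⟨p0, p1⟩ := hpow (Ico (s + 1) K) q
      rw [abs_mul, abs_mul, middle, abs_of_nonneg p0]
      refine (mul_le_of_le_one_left p0 (mul_le_one₀ (abs_layer_le ..) (abs_nonneg _)
        (abs_layer_le ..))).trans (p1.trans (pow_le_pow_right₀ one_le_two ?_))
      rw [Nat.card_Ico]
      omega⟩
  have hexp : ∀ K q, halaszProduct n P K q - 1 = (∑ u ∈ range K, layer n P u q) / 8 +
      (∑ u ∈ range K, ∑ s ∈ range u, layer n P s q * layer n P u q * middle n P s u q) / 64 := by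
    intro K q
    induction K with
    | zero => simp [halaszProduct]
    | succ K ih =>
      rw [halaszProduct, prod_range_succ, ← halaszProduct, mul_add, mul_one, add_sub_right_comm, ih,
        halaszProduct_eq, sum_range_succ, sum_range_succ, add_mul, one_mul, sum_mul]
      have e : ∀ s, layer n P s q / 8 * middle n P s K q * (layer n P K q / 8) =
          layer n P s q * layer n P K q * middle n P s K q / 64 := fun s => by ring
      simp only [e, ← sum_div]
      ring
  have hF := fun u => integrable_of_bounded (measurable_layer n P u) (abs_layer_le n P u)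
  have hFF := fun s K => integrable_of_bounded (hFG s K).1 (hFG s K).2
  have hFD := fun u => (integrable_discrFun P).bdd_mul (c := 1)
    (measurable_layer n P u).aestronglyMeasurable (Eventually.of_forall (abs_layer_le n P u))
  have hFFD := fun s K => (integrable_discrFun P).bdd_mul (c := 2 ^ K)
    (hFG s K).1.aestronglyMeasurable (Eventually.of_forall (hFG s K).2)
  have hGint : Integrable G ν := integrable_of_bounded (hmK _) (C := 2 ^ (n + 1)) fun q => by
    obtain ⟨p0, p1⟩ := hpow (range (n + 1)) q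
    rw [hG, halaszProduct, abs_of_nonneg p0]
    simpa using p1
  have hmean : ∫ q, (G q - 1) ∂ν = 0 := by
    simp only [hG, hexp]
    rw [integral_add ((integrable_finsetSum _ fun u _ => hF u).div_const _)
        ((integrable_finsetSum _ fun u _ => integrable_finsetSum _ fun s _ => hFF s u).div_const _),
      integral_div, integral_div, integral_finsetSum _ fun u _ => hF u,
      integral_finsetSum _ fun u _ => integrable_finsetSum _ fun s _ => hFF s u,
      sum_eq_zero fun u _ => (integral_layer P u).1, sum_eq_zero fun u hu => ?_]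
    · simp
    rw [integral_finsetSum _ fun s _ => hFF s u]
    exact sum_eq_zero fun s hs => (pair_estimate P (mem_range.1 hs)
      (Nat.lt_succ_iff.1 (mem_range.1 hu))).1
  have hI1 : ∫ q, (G q + 1) ∂ν = 2 := by
    rw [integral_sub hGint (integrable_const _), integral_const, probReal_univ, one_smul] at hmean
    rw [integral_add hGint (integrable_const _), integral_const, probReal_univ, one_smul]
    linarith
  have hlin : (n + 1 : ℝ) * ((N : ℝ) / 2 ^ n) / 32 ≤
      -∑ u ∈ range (n + 1), ∫ q, layer n P u q * discrFun P q ∂ν := by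
    rw [sum_congr rfl fun u _ => (integral_layer (n := n) P u).2, sum_neg_distrib, neg_neg,
      ← sum_mul, ← Nat.cast_sum]
    have e : ∑ u ∈ range (n + 1), #(boxesOf n P u) = #(emptyBoxes n P) := by
      rw [card_eq_sum_card_fiberwise (f := Prod.fst) (t := range (n + 1))]
      · rfl
      · exact fun t ht => (mem_product.1 (mem_filter.1 ht).1).1
    rw [e]
    have hT : ((n : ℝ) + 1) * 2 ^ n ≤ 2 * (#(emptyBoxes n P) : ℝ) := by
      exact_mod_cast card_emptyBoxes_ge hn1 P
    calc (n + 1 : ℝ) * ((N : ℝ) / 2 ^ n) / 32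
        = ((n + 1 : ℝ) * 2 ^ n / 2) * ((N : ℝ) / (16 * 4 ^ n)) := by
          rw [show (4 : ℝ) ^ n = 2 ^ n * 2 ^ n by rw [← mul_pow]; norm_num]
          field_simp
          ring
      _ ≤ _ := mul_le_mul_of_nonneg_right (by linarith) (by positivity)
  have hquad : ∑ u ∈ range (n + 1), ∫ q, ∑ s ∈ range u,
      layer n P s q * layer n P u q * middle n P s u q * discrFun P q ∂ν ≤
      (n + 1 : ℝ) * ((N : ℝ) / 2 ^ n) * 9 / 112 := by
    refine (sum_le_card_nsmul _ _ ((N : ℝ) / (16 * 2 ^ n) * (9 / 7)) fun u hu => ?_).trans_eq ?_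
    · rw [integral_finsetSum _ fun s _ => hFFD s u]
      refine (sum_le_sum fun s hs => (le_abs_self _).trans
        (pair_estimate P (mem_range.1 hs) (Nat.lt_succ_iff.1 (mem_range.1 hu))).2).trans ?_
      rw [← mul_sum]
      exact mul_le_mul_of_nonneg_left (sum_nine_sixteenth_le u) (by positivity)
    · rw [card_range, nsmul_eq_mul]
      push_cast
      field_simp
      ring
  have hGD : Integrable (fun q => (G q - 1) * discrFun P q) ν :=
    (integrable_discrFun P).bdd_mul (c := 2 ^ (n + 1) + 1)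
      (((hmK _).sub_const 1).aestronglyMeasurable) (Eventually.of_forall fun q => by
        obtain ⟨p0, p1⟩ := hpow (range (n + 1)) q
        simp only [card_range] at p1
        rw [Real.norm_eq_abs, hG, halaszProduct, abs_le]
        constructor <;> linarith)
  have hup : -∫ q, (G q - 1) * discrFun P q ∂ν ≤ 2 * (Real.log N / 8192) := by
    have hae : ∀ᵐ q ∂ν, q ∈ Set.Ico (0 : ℝ) 1 ×ˢ Set.Ico (0 : ℝ) 1 := by
      change ∀ᵐ q ∂unitMeasure.prod unitMeasure, _
      rw [unitMeasure, Measure.prod_restrict]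
      exact ae_restrict_mem (measurableSet_Ico.prod measurableSet_Ico)
    rw [← integral_neg, ← hI1, ← integral_mul_const]
    refine integral_mono_ae hGD.neg ((hGint.add (integrable_const 1)).mul_const _) ?_
    filter_upwards [hae] with q hq
    have h0 : 0 ≤ G q := (hpow (range (n + 1)) q).1
    refine (neg_le_abs _).trans ?_
    rw [abs_mul]
    exact mul_le_mul (abs_le.2 ⟨by linarith, by linarith⟩) (hcon q hq).le (abs_nonneg _)
      (by linarith)
  have e : ∀ q, (G q - 1) * discrFun P q = (∑ u ∈ range (n + 1), layer n P u q * discrFun P q) / 8 +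
      (∑ u ∈ range (n + 1), ∑ s ∈ range u,
        layer n P s q * layer n P u q * middle n P s u q * discrFun P q) / 64 := fun q => by
    rw [hG, hexp, add_mul, div_mul_eq_mul_div, div_mul_eq_mul_div]
    simp only [sum_mul]
  simp only [e] at hup
  rw [integral_add ((integrable_finsetSum _ fun u _ => hFD u).div_const _)
      ((integrable_finsetSum _ fun u _ => integrable_finsetSum _ fun s _ => hFFD s u).div_const _),
    integral_div, integral_div, integral_finsetSum _ fun u _ => hFD u,
    integral_finsetSum _ fun u _ => integrable_finsetSum _ fun s _ => hFFD s u] at hup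
  have hq : (1 : ℝ) / 4 ≤ N / 2 ^ n := by
    rw [div_le_div_iff₀ (by norm_num) (by positivity)]
    exact_mod_cast (by omega : 1 * 2 ^ n ≤ N * 4)
  have hlog : Real.log N ≤ (n : ℝ) + 1 := by
    have h3 : (N : ℝ) ≤ 2 ^ n := by exact_mod_cast (by omega : N ≤ 2 ^ n)
    refine ((Real.log_le_log (Nat.cast_pos.2 hN) h3).trans (le_of_eq (Real.log_pow 2 n))).trans ?_
    nlinarith [Real.log_two_lt_d9, (n.cast_nonneg : (0 : ℝ) ≤ n)]
  have hn0 : (0 : ℝ) < n + 1 := by positivity
  nlinarith [mul_le_mul_of_nonneg_left hq hn0.le]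

/-- **Schmidt's theorem for sequences.** -/
theorem frequently_log_le_countError (x : ℕ → ℝ) :
    ∃ᶠ M : ℕ in atTop, ∃ t ∈ Set.Ico (0 : ℝ) 1, Real.log M / 16384 ≤ |countError x M t| := by
  rw [frequently_atTop]
  intro M₀
  have hlim : Tendsto (fun N : ℕ => Real.log N) atTop atTop :=
    Real.tendsto_log_atTop.comp tendsto_natCast_atTop_atTop
  obtain ⟨N, hbig, hN⟩ := ((hlim.eventually (eventually_ge_atTop (16384 * ((M₀ : ℝ) + 1)))).and
    (eventually_gt_atTop 0)).exists
  obtain ⟨M, hMN, t, ht, h⟩ := exists_segment_of_large x hN (exists_log_le_discrFun hN _)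
  have hM₀ : (0 : ℝ) ≤ M₀ := M₀.cast_nonneg
  have h2 : (M₀ : ℝ) + 1 ≤ M :=
    (show (M₀ : ℝ) + 1 ≤ |countError x M t| by linarith).trans (abs_countError_le ht.1 ht.2.le)
  refine ⟨M, by exact_mod_cast (show (M₀ : ℝ) ≤ M by linarith), t, ht, ?_⟩
  have h3 : Real.log M ≤ Real.log N := Real.log_le_log (by linarith) (Nat.cast_le.2 hMN)
  linarith

end FA.RothDiscrepancy

end
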