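import Fermat.Agent.RothDiscrepancy.Sequences
import Fermat.Agent.BoundedRemainder.Main
import Mathlib.NumberTheory.DiophantineApproximation.Basic
import Mathlib.Data.Rat.Lemmas

/-!
# Sharpness of Schmidt's theorem

For `p / q` close to `α` the `q` consecutive points `t + j α` stay near the grid of step `1 / q`,
so their fractional parts sum to `q / 2` up to a constant. For badly approximable `α` Dirichlet
gives such a `q` comparable to `N`, so halving `N` costs a constant.
-/

set_option autoImplicit false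

noncomputable section

open Finset Filter

namespace FA.RothDiscrepancy

theorem abs_fract_div_sub_le {q : ℕ} (hq : 0 < q) (m : ℤ) {θ : ℝ} (h1 : -1 ≤ θ) (h2 : θ < 2) :
    |Int.fract (((m : ℝ) + θ) / q) - ((m % q : ℤ) : ℝ) / q| ≤ 2 / q +
      ((if m % (q : ℤ) = 0 then 1 else 0) + if m % (q : ℤ) = (q : ℤ) - 1 then 1 else 0) := by
  have hq' : (0 : ℝ) < q := Nat.cast_pos.2 hq
  have hi0 : 0 ≤ m % (q : ℤ) := Int.emod_nonneg _ (by omega)
  have hi1 : m % (q : ℤ) < q := Int.emod_lt_of_pos _ (by omega)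
  have e : ((m : ℝ) + θ) / q =
      (((m % q : ℤ) : ℝ) + θ) / q + (((m / q : ℤ)) : ℝ) := by
    have h := congrArg (fun z : ℤ => (z : ℝ)) (Int.emod_add_ediv_mul m q)
    push_cast at h
    field_simp
    linarith
  rw [e, Int.fract_add_intCast]
  set i := m % (q : ℤ)
  have h0 : (0 : ℝ) ≤ (i : ℝ) / q := div_nonneg (by exact_mod_cast hi0) hq'.le
  have h3 : (i : ℝ) / q < 1 := by
    rw [div_lt_one hq']
    exact_mod_cast hi1
  have hg : 0 ≤ (2 : ℝ) / q := by positivity
  by_cases hi : i = 0 ∨ i = (q : ℤ) - 1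
  · have hb : |Int.fract (((i : ℝ) + θ) / q) - (i : ℝ) / q| ≤ 1 := by
      rw [abs_le]
      constructor <;>
        linarith [Int.fract_nonneg (((i : ℝ) + θ) / q), Int.fract_lt_one (((i : ℝ) + θ) / q)]
    refine hb.trans ?_
    rcases hi with hi | hi <;> split_ifs <;> linarith
  · rw [not_or] at hi
    rw [if_neg hi.1, if_neg hi.2, add_zero, add_zero]
    have a1 : (1 : ℝ) ≤ (i : ℝ) := by exact_mod_cast (show (1 : ℤ) ≤ i by omega)
    have a2 : (i : ℝ) + 2 ≤ q := by exact_mod_cast (show i + 2 ≤ (q : ℤ) by omega)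
    rw [Int.fract_eq_self.2 ⟨div_nonneg (by linarith) hq'.le, (div_lt_one hq').2 (by linarith)⟩,
      ← sub_div, add_sub_cancel_left, abs_div, abs_of_pos hq']
    exact div_le_div_of_nonneg_right (abs_le.2 ⟨by linarith, h2.le⟩) hq'.le

/-- A block of `q` points near the grid. -/
theorem abs_sum_fract_sub_le {α : ℝ} {p : ℤ} {q : ℕ} (hq : 0 < q) (hpq : IsCoprime p (q : ℤ))
    (hα : (q : ℝ) * |(q : ℝ) * α - p| ≤ 1) (u : ℝ) :
    |(∑ j ∈ range q, Int.fract (u + j * α)) - ((q : ℝ) - 1) / 2| ≤ 4 := by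
  classical
  have hq' : (0 : ℝ) < q := Nat.cast_pos.2 hq
  have hqz : (0 : ℤ) < q := Int.natCast_pos.2 hq
  set m₀ := ⌊(q : ℝ) * u⌋ with hm₀
  set σ : ℕ → ℕ := fun j => ((m₀ + j * p) % (q : ℤ)).toNat with hσ
  have hσc : ∀ j : ℕ, ((σ j : ℕ) : ℤ) = (m₀ + j * p) % (q : ℤ) := fun j =>
    Int.toNat_of_nonneg (Int.emod_nonneg _ hqz.ne')
  have hinj : Set.InjOn σ (range q) := fun a ha b hb hab => by
    rw [coe_range, Set.mem_Iio] at ha hb
    have h : ((σ a : ℕ) : ℤ) = (σ b : ℕ) := by rw [hab]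
    rw [hσc, hσc] at h
    have hd : (q : ℤ) ∣ ((b : ℤ) - a) * p := by
      have := Int.ModEq.dvd h
      rwa [show m₀ + (b : ℤ) * p - (m₀ + (a : ℤ) * p) = ((b : ℤ) - a) * p by ring] at this
    have := Int.eq_zero_of_abs_lt_dvd (hpq.symm.dvd_of_dvd_mul_right hd) (by rw [abs_lt]; omega)
    omega
  have himage : (range q).image σ = range q := by
    refine eq_of_subset_of_card_le (fun i hi => ?_) (by rw [card_image_of_injOn hinj])
    obtain ⟨j, -, rfl⟩ := mem_image.1 hi
    have := hσc j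
    have := Int.emod_lt_of_pos (m₀ + (j : ℤ) * p) hqz
    rw [mem_range]
    omega
  have hgauss : ∑ j ∈ range q, ((σ j : ℕ) : ℝ) / q = ((q : ℝ) - 1) / 2 := by
    rw [← sum_image (g := σ) (f := fun i : ℕ => (i : ℝ) / q) hinj, himage, ← sum_div]
    have := Finset.sum_range_id_mul_two q
    rw [← @Nat.cast_inj ℝ, Nat.cast_mul, Nat.cast_sum, Nat.cast_mul, Nat.cast_sub hq] at this
    push_cast at this
    field_simp
    linarith
  rw [← hgauss, ← sum_sub_distrib]
  refine (abs_sum_le_sum_abs _ _).trans ?_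
  refine (sum_le_sum (g := fun j => (2 : ℝ) / q +
    ((if σ j = 0 then 1 else 0) + if σ j = q - 1 then 1 else 0)) fun j hj => ?_).trans ?_
  · rw [mem_range] at hj
    set θ := Int.fract ((q : ℝ) * u) + j * ((q : ℝ) * α - p) with hθ
    have e : u + j * α = (((m₀ + j * p : ℤ) : ℝ) + θ) / q := by
      rw [eq_div_iff hq'.ne', hθ, hm₀]
      have := Int.floor_add_fract ((q : ℝ) * u)
      push_cast
      linarith
    have hj1 : |(j : ℝ) * ((q : ℝ) * α - p)| ≤ 1 := by
      rw [abs_mul, Nat.abs_cast]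
      exact (mul_le_mul_of_nonneg_right (Nat.cast_le.2 hj.le) (abs_nonneg _)).trans hα
    obtain ⟨hj2, hj3⟩ := abs_le.1 hj1
    have h := abs_fract_div_sub_le hq (m₀ + j * p) (θ := θ)
      (by linarith [Int.fract_nonneg ((q : ℝ) * u)]) (by linarith [Int.fract_lt_one ((q : ℝ) * u)])
    rw [← e, ← hσc, Int.cast_natCast] at h
    simpa only [Nat.cast_eq_zero, ← Nat.cast_one (R := ℤ), ← Nat.cast_sub hq, Nat.cast_inj] using h
  · rw [sum_add_distrib, sum_const, card_range, nsmul_eq_mul, mul_div_cancel₀ _ hq'.ne',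
      sum_add_distrib]
    have hone : ∀ a : ℕ, ∑ j ∈ range q, (if σ j = a then (1 : ℝ) else 0) ≤ 1 := fun a => by
      rw [sum_boole, Nat.cast_le_one, card_le_one]
      intro x hx y hy
      rw [mem_filter] at hx hy
      exact hinj hx.1 hy.1 (hx.2.trans hy.2.symm)
    linarith [hone 0, hone (q - 1)]

theorem abs_block_le {α : ℝ} {p : ℤ} {q : ℕ} (hq : 0 < q) (hpq : IsCoprime p (q : ℤ))
    (hα : (q : ℝ) * |(q : ℝ) * α - p| ≤ 1) (a b t : ℝ) :
    |FA.BoundedRemainder.remainder α a b q t| ≤ 8 := by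
  have e : FA.BoundedRemainder.remainder α a b q t =
      (∑ j ∈ range q, Int.fract (t - b + j * α)) - ∑ j ∈ range q, Int.fract (t - a + j * α) := by
    simp only [FA.BoundedRemainder.remainder, FA.BoundedRemainder.centred, add_sub_right_comm,
      sum_sub_distrib]
  rw [e]
  obtain ⟨h1, h2⟩ := abs_le.1 (abs_sum_fract_sub_le hq hpq hα (t - b))
  obtain ⟨h3, h4⟩ := abs_le.1 (abs_sum_fract_sub_le hq hpq hα (t - a))
  rw [abs_le]
  constructor <;> linarith

theorem remainder_add (α a b : ℝ) (M N : ℕ) (t : ℝ) :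
    FA.BoundedRemainder.remainder α a b (M + N) t = FA.BoundedRemainder.remainder α a b M t +
      FA.BoundedRemainder.remainder α a b N (t + M * α) := by
  simp only [FA.BoundedRemainder.remainder, sum_range_add]
  congr 1
  exact sum_congr rfl fun n _ => by push_cast; ring_nf

theorem abs_blocks_le {α : ℝ} {p : ℤ} {q : ℕ} (hq : 0 < q) (hpq : IsCoprime p (q : ℤ))
    (hα : (q : ℝ) * |(q : ℝ) * α - p| ≤ 1) (a b : ℝ) (k : ℕ) (t : ℝ) :
    |FA.BoundedRemainder.remainder α a b (k * q) t| ≤ 8 * k := by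
  induction k with
  | zero => simp [FA.BoundedRemainder.remainder]
  | succ k ih =>
    rw [Nat.succ_mul, remainder_add]
    refine (abs_add_le _ _).trans ?_
    push_cast
    linarith [abs_block_le hq hpq hα a b (t + (k : ℝ) * q * α)]

/-- **The logarithmic bound.** -/
theorem abs_remainder_le_log {α c : ℝ} (hc : 0 < c)
    (hα : ∀ q : ℕ, 1 ≤ q → ∀ m : ℤ, c / q ≤ |(q : ℝ) * α - m|) (a b : ℝ) :
    ∀ (N : ℕ) (t : ℝ), 0 < N →
      |FA.BoundedRemainder.remainder α a b N t| ≤ (16 / c + 1) * (Nat.log 2 N + 1) := by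
  intro N
  induction N using Nat.strongRecOn with
  | _ N ih =>
    intro t hN
    have hA : (1 : ℝ) ≤ 16 / c + 1 := by
      have : 0 < 16 / c := by positivity
      linarith
    rcases Nat.lt_or_ge N 2 with h2 | h2
    · obtain rfl : N = 1 := by omega
      simp only [FA.BoundedRemainder.remainder, sum_range_one, Nat.log_one_right, Nat.cast_zero,
        zero_add, mul_one, FA.BoundedRemainder.centred]
      refine le_trans ?_ hA
      rw [abs_le]
      constructor <;>
        linarith [Int.fract_nonneg (t + 0 * α - b), Int.fract_lt_one (t + 0 * α - b),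
          Int.fract_nonneg (t + 0 * α - a), Int.fract_lt_one (t + 0 * α - a)]
    obtain ⟨r, hr, hden⟩ := Real.exists_rat_abs_sub_le_and_den_le α (show 0 < N / 2 by omega)
    set q := r.den
    have hq : 0 < q := r.den_pos
    have hq' : (0 : ℝ) < q := Nat.cast_pos.2 hq
    have hn1 : (0 : ℝ) < ((N / 2 : ℕ) : ℝ) + 1 := by positivity
    have hdist : |(q : ℝ) * α - r.num| ≤ 1 / (((N / 2 : ℕ) : ℝ) + 1) := by
      have e : (q : ℝ) * α - r.num = q * (α - r) := by
        rw [mul_sub, Rat.cast_def r, mul_div_cancel₀ _ hq'.ne']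
      rw [e, abs_mul, abs_of_pos hq']
      refine (mul_le_mul_of_nonneg_left hr hq'.le).trans_eq ?_
      field_simp
    have hqn : (q : ℝ) ≤ ((N / 2 : ℕ) : ℝ) + 1 := by
      have : (q : ℝ) ≤ ((N / 2 : ℕ) : ℝ) := Nat.cast_le.2 hden
      linarith
    have hclose : (q : ℝ) * |(q : ℝ) * α - r.num| ≤ 1 :=
      (mul_le_mul hqn hdist (abs_nonneg _) hn1.le).trans_eq (by field_simp)
    have hcop : IsCoprime r.num (q : ℤ) := Rat.isCoprime_num_den r
    set k := N / q with hk
    have hsplit : N = k * q + N % q := (Nat.div_add_mod' N q).symm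
    have hkc : (k : ℝ) ≤ 2 / c := by
      have h1 : c * (((N / 2 : ℕ) : ℝ) + 1) ≤ q := by
        have h := (hα q hq r.num).trans hdist
        rwa [div_le_div_iff₀ hq' hn1, one_mul] at h
      have h2' : (N : ℝ) ≤ 2 * (((N / 2 : ℕ) : ℝ) + 1) := by
        exact_mod_cast (show N ≤ 2 * (N / 2 + 1) by omega)
      have h3 : (k : ℝ) * q ≤ N := by exact_mod_cast Nat.div_mul_le_self N q
      rw [le_div_iff₀ hc]
      have : (k : ℝ) * c * (((N / 2 : ℕ) : ℝ) + 1) ≤ 2 * (((N / 2 : ℕ) : ℝ) + 1) := by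
        nlinarith [mul_le_mul_of_nonneg_left h1 (k.cast_nonneg : (0 : ℝ) ≤ k)]
      exact le_of_mul_le_mul_right this hn1
    rw [hsplit, remainder_add, ← hsplit]
    refine (abs_add_le _ _).trans ?_
    have h8 : 8 * (k : ℝ) ≤ 16 / c := by
      rw [show (16 : ℝ) / c = 8 * (2 / c) by ring]
      linarith
    have hfirst := abs_blocks_le hq hcop hclose a b k t
    have hlog1 : 1 ≤ Nat.log 2 N := Nat.log_pos one_lt_two h2
    rcases Nat.eq_zero_or_pos (N % q) with h0 | h0
    · rw [h0]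
      simp only [FA.BoundedRemainder.remainder, range_zero, sum_empty, abs_zero, add_zero]
      refine hfirst.trans (h8.trans (le_trans ?_ (le_mul_of_one_le_right (by linarith) ?_)))
      · linarith
      · exact le_add_of_nonneg_left (Nat.cast_nonneg _)
    have hlt : N % q < q := Nat.mod_lt _ hq
    have hlog : (Nat.log 2 (N % q) : ℝ) + 1 ≤ Nat.log 2 N := by
      have := Nat.log_mono_right (b := 2) (show N % q ≤ N / 2 by omega)
      rw [Nat.log_div_base] at this
      exact_mod_cast (show Nat.log 2 (N % q) + 1 ≤ Nat.log 2 N by omega)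
    have h := ih (N % q) (by omega) (t + (k * q : ℕ) * α) h0
    nlinarith

theorem abs_countIco_sub_le_log {α c : ℝ} (hc : 0 < c)
    (hα : ∀ q : ℕ, 1 ≤ q → ∀ m : ℤ, c / q ≤ |(q : ℝ) * α - m|) {N : ℕ} (hN : 2 ≤ N) {a b : ℝ}
    (ha : 0 ≤ a) (hab : a ≤ b) (hb : b ≤ 1) :
    |(#((range N).filter fun n : ℕ => Int.fract ((n : ℝ) * α) ∈ Set.Ico a b) : ℝ) - N * (b - a)| ≤
      4 * (16 / c + 1) * Real.log N := by
  rw [← FA.BoundedRemainder.remainder_zero_eq ha hab hb]
  refine (abs_remainder_le_log hc hα a b N 0 (by omega)).trans ?_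
  rw [mul_comm 4 (16 / c + 1), mul_assoc]
  refine mul_le_mul_of_nonneg_left ?_ (by positivity)
  have h := Nat.pow_log_le_self 2 (show N ≠ 0 by omega)
  have h1 : (Nat.log 2 N : ℝ) * Real.log 2 ≤ Real.log N := by
    rw [← Real.log_pow]
    exact Real.log_le_log (by positivity) (by exact_mod_cast h)
  have h2 : Real.log 2 ≤ Real.log N := Real.log_le_log two_pos (by exact_mod_cast hN)
  nlinarith [Real.log_two_gt_d9, ((Nat.log 2 N).cast_nonneg : (0 : ℝ) ≤ _)]

/-- **The Hammersley set.** -/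
theorem abs_discrFun_hammersley_le {N : ℕ} (hN : 2 ≤ N) {t y : ℝ} (ht : t ∈ Set.Ico (0 : ℝ) 1)
    (hy : y ∈ Set.Ico (0 : ℝ) 1) :
    |discrFun (fun i : Fin N => (vanDerCorput i, ((i : ℕ) : ℝ) / N)) (t, y)| ≤
      6 * Real.log N := by
  obtain ⟨M, hMN, r, hr, e⟩ := discrFun_graph vanDerCorput (show 0 < N by omega) ht hy
  have h2 : Real.log 2 ≤ Real.log N := Real.log_le_log two_pos (by exact_mod_cast hN)
  have hlog2 := Real.log_two_gt_d9
  rw [e]
  refine (abs_add_le _ _).trans ?_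
  rcases Nat.lt_or_ge M 2 with hM | hM
  · have h1 := abs_countError_le (x := vanDerCorput) (M := M) ht.1 ht.2.le
    have : (M : ℝ) ≤ 1 := Nat.cast_le_one.2 (Nat.lt_succ_iff.1 hM)
    linarith
  · have h1 := abs_countError_vanDerCorput_le_log hM ht.1 ht.2.le
    have : Real.log M ≤ Real.log N :=
      Real.log_le_log (Nat.cast_pos.2 (by omega)) (Nat.cast_le.2 hMN)
    linarith

end FA.RothDiscrepancy

end
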