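import Mathlib.MeasureTheory.Function.L2Space
import Mathlib.MeasureTheory.Integral.Prod
import Mathlib.MeasureTheory.Integral.IntervalIntegral.FundThmCalculus
import Mathlib.Analysis.SpecialFunctions.Integrals.Basic
import Mathlib.Analysis.SpecialFunctions.Log.Basic
import Mathlib.Analysis.Complex.ExponentialBounds
import Mathlib.MeasureTheory.Function.Floor

/-!
# Roth's theorem on irregularities of distribution

For `2 N ≤ 2 ^ n ≤ 4 N` and each shape `2 ^ (-r) × 2 ^ (r - n)` at least half of the dyadic boxes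
are empty. Their Haar products are orthogonal and only see the term `N x y` of the discrepancy
function, whose square integral is therefore at least a constant times `n`.
-/

set_option autoImplicit false

noncomputable section

open MeasureTheory Finset

namespace FA.RothDiscrepancy

/-- Lebesgue measure on `[0, 1)`. -/
def unitMeasure : Measure ℝ := volume.restrict (Set.Ico 0 1)

instance : IsProbabilityMeasure unitMeasure :=
  ⟨by rw [unitMeasure, Measure.restrict_apply_univ, Real.volume_Ico]; norm_num⟩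

theorem integral_indicator_Ico (g : ℝ → ℝ) {u v : ℝ} (hu : 0 ≤ u) (huv : u ≤ v) (hv : v ≤ 1) :
    ∫ x, (Set.Ico u v).indicator g x ∂unitMeasure = ∫ x in u..v, g x := by
  rw [integral_indicator measurableSet_Ico, unitMeasure,
    Measure.restrict_restrict measurableSet_Ico,
    Set.inter_eq_self_of_subset_left (Set.Ico_subset_Ico hu hv),
    intervalIntegral.integral_of_le huv,
    integral_Ico_eq_integral_Ioo, integral_Ioc_eq_integral_Ioo]

/-- The Haar function of the dyadic interval `[a / 2 ^ k, (a + 1) / 2 ^ k)`. -/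
def haar (k a : ℕ) (x : ℝ) : ℝ :=
  if ⌊x * 2 ^ (k + 1)⌋ = 2 * (a : ℤ) then 1
  else if ⌊x * 2 ^ (k + 1)⌋ = 2 * (a : ℤ) + 1 then -1 else 0

theorem measurable_haar (k a : ℕ) : Measurable (haar k a) := by
  have h : Measurable fun x : ℝ => ⌊x * 2 ^ (k + 1)⌋ :=
    Int.measurable_floor.comp (measurable_id.mul_const _)
  exact Measurable.ite (h (measurableSet_singleton _)) measurable_const
    (Measurable.ite (h (measurableSet_singleton _)) measurable_const measurable_const)

theorem abs_haar_le (k a : ℕ) (x : ℝ) : |haar k a x| ≤ 1 := by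
  unfold haar
  split_ifs <;> norm_num

theorem integrable_haar (k a : ℕ) : Integrable (haar k a) unitMeasure :=
  Integrable.of_bound (measurable_haar k a).aestronglyMeasurable 1
    (Filter.Eventually.of_forall fun x => by rw [Real.norm_eq_abs]; exact abs_haar_le k a x)

/-- The end points. -/
def dyadic (k : ℕ) (m : ℕ) : ℝ := (m : ℝ) / 2 ^ (k + 1)

theorem floor_eq_iff_mem (k m : ℕ) (x : ℝ) :
    ⌊x * 2 ^ (k + 1)⌋ = (m : ℤ) ↔ x ∈ Set.Ico (dyadic k m) (dyadic k (m + 1)) := by
  rw [Int.floor_eq_iff, Set.mem_Ico, dyadic, dyadic, div_le_iff₀ (by positivity),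
    lt_div_iff₀ (by positivity)]
  push_cast
  rfl

theorem haar_eq (k a : ℕ) :
    haar k a = fun x => (Set.Ico (dyadic k (2 * a)) (dyadic k (2 * a + 1))).indicator 1 x -
      (Set.Ico (dyadic k (2 * a + 1)) (dyadic k (2 * a + 2))).indicator 1 x := by
  funext x
  simp only [Set.indicator_apply, ← floor_eq_iff_mem, haar, Pi.one_apply]
  push_cast
  split_ifs <;> first | omega | simp

theorem dyadic_mem {k a : ℕ} (ha : a < 2 ^ k) {m : ℕ} (hm : m ≤ 2 * a + 2) :
    0 ≤ dyadic k m ∧ dyadic k m ≤ 1 := by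
  refine ⟨by unfold dyadic; positivity, ?_⟩
  rw [dyadic, div_le_one (by positivity)]
  exact_mod_cast (hm.trans (by rw [pow_succ]; omega) : m ≤ 2 ^ (k + 1))

theorem dyadic_mono (k : ℕ) : Monotone (dyadic k) := fun i j h => by
  unfold dyadic
  gcongr

theorem integral_haar_mul {k a : ℕ} (ha : a < 2 ^ k) (g : ℝ → ℝ) (hg : Continuous g) :
    ∫ x, haar k a x * g x ∂unitMeasure =
      (∫ x in dyadic k (2 * a)..dyadic k (2 * a + 1), g x) -
        ∫ x in dyadic k (2 * a + 1)..dyadic k (2 * a + 2), g x := by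
  have hi : ∀ u v : ℝ, Integrable ((Set.Ico u v).indicator g) unitMeasure := fun u v =>
    ((hg.integrableOn_Icc (a := (0 : ℝ)) (b := 1)).mono_set Set.Ico_subset_Icc_self).integrable
      |>.indicator measurableSet_Ico
  have e : ∀ x, haar k a x * g x =
      (Set.Ico (dyadic k (2 * a)) (dyadic k (2 * a + 1))).indicator g x -
        (Set.Ico (dyadic k (2 * a + 1)) (dyadic k (2 * a + 2))).indicator g x := fun x => by
    rw [haar_eq, sub_mul]
    simp only [Set.indicator_apply, Pi.one_apply, ite_mul, one_mul, zero_mul]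
  simp only [e]
  rw [integral_sub (hi _ _) (hi _ _),
    integral_indicator_Ico g (dyadic_mem ha (by omega)).1 (dyadic_mono k (by omega))
      (dyadic_mem ha (by omega)).2,
    integral_indicator_Ico g (dyadic_mem ha (by omega)).1 (dyadic_mono k (by omega))
      (dyadic_mem ha le_rfl).2]

theorem integral_haar {k a : ℕ} (ha : a < 2 ^ k) : ∫ x, haar k a x ∂unitMeasure = 0 := by
  have h := integral_haar_mul ha (fun _ => 1) continuous_const
  simp only [mul_one, intervalIntegral.integral_const, smul_eq_mul] at h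
  rw [h, dyadic, dyadic, dyadic]
  push_cast
  ring

theorem integral_haar_mul_id {k a : ℕ} (ha : a < 2 ^ k) :
    ∫ x, haar k a x * x ∂unitMeasure = -(1 / (4 * 4 ^ k)) := by
  rw [integral_haar_mul ha (fun x => x) continuous_id, integral_id, integral_id, dyadic, dyadic,
    dyadic, show (4 : ℝ) ^ k = (2 ^ k) ^ 2 by rw [← pow_mul, mul_comm, pow_mul]; norm_num]
  push_cast
  rw [pow_succ]
  field_simp
  ring

theorem integral_haar_sq {k a : ℕ} (ha : a < 2 ^ k) :
    ∫ x, haar k a x ^ 2 ∂unitMeasure = 1 / 2 ^ k := by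
  have e : ∀ x, haar k a x ^ 2 =
      (Set.Ico (dyadic k (2 * a)) (dyadic k (2 * a + 2))).indicator (fun _ => (1 : ℝ)) x :=
    fun x => by
    have h1 := floor_eq_iff_mem k (2 * a) x
    have h2 := floor_eq_iff_mem k (2 * a + 1) x
    rw [show 2 * a + 1 + 1 = 2 * a + 2 from rfl] at h2
    push_cast at h1 h2
    simp only [haar, h1, h2, Set.indicator_apply, Set.mem_Ico]
    have := dyadic_mono k (show 2 * a ≤ 2 * a + 1 by omega)
    have := dyadic_mono k (show 2 * a + 1 ≤ 2 * a + 2 by omega)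
    split_ifs <;> first | (exfalso; grind) | norm_num
  simp only [e]
  rw [integral_indicator_Ico _ (dyadic_mem ha (by omega)).1 (dyadic_mono k (by omega))
    (dyadic_mem ha le_rfl).2, intervalIntegral.integral_const, smul_eq_mul, mul_one, dyadic, dyadic,
    pow_succ]
  push_cast
  field_simp
  ring

/-- Finer Haar functions live where coarser ones are constant. -/
theorem haar_mul_haar_eq {k l a b : ℕ} (hkl : k < l) (x : ℝ) :
    haar k a x * haar l b x =
      (if (b : ℤ) / 2 ^ (l - k - 1) = 2 * a then 1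
        else if (b : ℤ) / 2 ^ (l - k - 1) = 2 * a + 1 then -1 else 0) * haar l b x := by
  by_cases h : haar l b x = 0
  · rw [h, mul_zero, mul_zero]
  have hb : ⌊x * 2 ^ (l + 1)⌋ = 2 * (b : ℤ) ∨ ⌊x * 2 ^ (l + 1)⌋ = 2 * (b : ℤ) + 1 := by
    by_contra hc
    rw [not_or] at hc
    exact h (by rw [haar, if_neg hc.1, if_neg hc.2])
  have hf : ⌊x * 2 ^ (k + 1)⌋ = (b : ℤ) / 2 ^ (l - k - 1) := by
    have e : x * 2 ^ (k + 1) = x * 2 ^ (l + 1) / ((2 ^ (l - k) : ℕ) : ℝ) := by
      rw [Nat.cast_pow, Nat.cast_ofNat, eq_div_iff (by positivity), mul_assoc, ← pow_add]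
      congr 2
      omega
    obtain ⟨j, hj⟩ : ∃ j, l - k = j + 1 := ⟨l - k - 1, by omega⟩
    rw [e, Int.floor_div_natCast, Nat.cast_pow, Nat.cast_ofNat, hj, Nat.add_sub_cancel,
      pow_succ' (2 : ℤ) j, ← Int.ediv_ediv_of_nonneg (by norm_num : (0 : ℤ) ≤ 2)]
    congr 1
    omega
  rw [haar, hf]

theorem integral_haar_mul_haar {k l a b : ℕ} (hl : b < 2 ^ l) (hkl : k < l) :
    ∫ x, haar k a x * haar l b x ∂unitMeasure = 0 := by
  rw [integral_congr_ae (Filter.Eventually.of_forall (haar_mul_haar_eq hkl)), integral_const_mul,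
    integral_haar hl, mul_zero]

theorem haar_mul_haar_same {k a b : ℕ} (hab : a ≠ b) (x : ℝ) : haar k a x * haar k b x = 0 := by
  unfold haar
  split_ifs <;> first | omega | simp

/-- The indicator of the half line beyond `p` is constant on an interval avoiding `p`. -/
theorem integral_haar_mul_step {k a : ℕ} (ha : a < 2 ^ k) {p : ℝ}
    (hp : ⌊p * 2 ^ k⌋ ≠ (a : ℤ)) :
    ∫ x, haar k a x * (if p < x then 1 else 0) ∂unitMeasure = 0 := by
  have e : ∀ x, haar k a x * (if p < x then 1 else 0) =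
      (if ⌊p * 2 ^ k⌋ < (a : ℤ) then 1 else 0) * haar k a x := fun x => by
    by_cases h : haar k a x = 0
    · rw [h, zero_mul, mul_zero]
    have hb : ⌊x * 2 ^ (k + 1)⌋ = 2 * (a : ℤ) ∨ ⌊x * 2 ^ (k + 1)⌋ = 2 * (a : ℤ) + 1 := by
      by_contra hc
      rw [not_or] at hc
      exact h (by rw [haar, if_neg hc.1, if_neg hc.2])
    have hx : (a : ℝ) ≤ x * 2 ^ k ∧ x * 2 ^ k < a + 1 := by
      rw [pow_succ, ← mul_assoc, Int.floor_eq_iff, Int.floor_eq_iff] at hb
      push_cast at hb
      rcases hb with ⟨h1, h2⟩ | ⟨h1, h2⟩ <;> constructor <;> linarith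
    have hk : (0 : ℝ) < 2 ^ k := by positivity
    rw [mul_comm]
    congr 1
    by_cases hlt : ⌊p * 2 ^ k⌋ < (a : ℤ)
    · rw [if_pos hlt, if_pos]
      rw [Int.floor_lt, Int.cast_natCast] at hlt
      exact lt_of_mul_lt_mul_right (hlt.trans_le hx.1) hk.le
    · rw [if_neg hlt, if_neg]
      have h2 : ((a + 1 : ℕ) : ℝ) ≤ p * 2 ^ k := by
        rw [← Int.cast_natCast, ← Int.le_floor]
        omega
      push_cast at h2
      intro hpx
      linarith [mul_lt_mul_of_pos_right hpx hk, hx.2]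
  rw [integral_congr_ae (Filter.Eventually.of_forall e), integral_const_mul, integral_haar ha,
    mul_zero]

variable {N : ℕ}

/-- The discrepancy function. -/
def discrFun (P : Fin N → ℝ × ℝ) (q : ℝ × ℝ) : ℝ :=
  (#(univ.filter fun i => (P i).1 < q.1 ∧ (P i).2 < q.2) : ℝ) - N * q.1 * q.2

theorem discrFun_eq (P : Fin N → ℝ × ℝ) (q : ℝ × ℝ) :
    discrFun P q = (∑ i, (if (P i).1 < q.1 then (1 : ℝ) else 0) *
      (if (P i).2 < q.2 then 1 else 0)) - N * (q.1 * q.2) := by
  rw [discrFun, ← sum_boole, mul_assoc]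
  congr 1
  exact sum_congr rfl fun i _ => by split_ifs <;> simp_all

/-- An index of a box of shape `2 ^ (-r) × 2 ^ (r - n)`. -/
def boxFun (n : ℕ) (t : ℕ × ℕ × ℕ) (q : ℝ × ℝ) : ℝ :=
  haar t.1 t.2.1 q.1 * haar (n - t.1) t.2.2 q.2

/-- The empty boxes. -/
def emptyBoxes (n : ℕ) (P : Fin N → ℝ × ℝ) : Finset (ℕ × ℕ × ℕ) :=
  (range (n + 1) ×ˢ range (2 ^ n) ×ˢ range (2 ^ n)).filter fun t =>
    t.2.1 < 2 ^ t.1 ∧ t.2.2 < 2 ^ (n - t.1) ∧
      ∀ i, ¬(⌊(P i).1 * 2 ^ t.1⌋ = (t.2.1 : ℤ) ∧ ⌊(P i).2 * 2 ^ (n - t.1)⌋ = (t.2.2 : ℤ))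

theorem card_emptyBoxes_ge {n : ℕ} (hn : 2 * N ≤ 2 ^ n) (P : Fin N → ℝ × ℝ) :
    (n + 1) * 2 ^ n ≤ 2 * #(emptyBoxes n P) := by
  classical
  have hfib : ∀ r ∈ range (n + 1), 2 ^ n ≤ 2 * #((emptyBoxes n P).filter fun t => t.1 = r) := by
    intro r hr
    rw [mem_range] at hr
    have h2 : 2 ^ r * 2 ^ (n - r) = 2 ^ n := by rw [← pow_add]; congr 1; omega
    set B := (range (2 ^ r) ×ˢ range (2 ^ (n - r))) with hB
    set occ := (univ : Finset (Fin N)).image fun i =>
      ((⌊(P i).1 * 2 ^ r⌋).toNat, (⌊(P i).2 * 2 ^ (n - r)⌋).toNat) with hocc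
    have hsub : (B \ occ).map ⟨fun p => (r, p), fun p p' h => by simpa using h⟩ ⊆
        (emptyBoxes n P).filter fun t => t.1 = r := by
      intro t ht
      simp only [mem_map, mem_sdiff, hB, mem_product, mem_range, Function.Embedding.coeFn_mk] at ht
      obtain ⟨⟨a, b⟩, ⟨⟨ha, hb⟩, hnot⟩, rfl⟩ := ht
      have h3 : a < 2 ^ n := ha.trans_le (Nat.pow_le_pow_right two_pos (by omega))
      have h4 : b < 2 ^ n := hb.trans_le (Nat.pow_le_pow_right two_pos (by omega))
      simp only [emptyBoxes, mem_filter, mem_product, mem_range, and_true]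
      refine ⟨⟨hr, h3, h4⟩, ha, hb, fun i ⟨e1, e2⟩ => hnot (mem_image.2 ⟨i, mem_univ i, ?_⟩)⟩
      simp [e1, e2]
    have h5 := card_le_card hsub
    rw [card_map] at h5
    have h7 : #occ ≤ N := card_image_le.trans_eq (by simp)
    have h8 : #B = 2 ^ n := by rw [hB, card_product, card_range, card_range, h2]
    have h9 : #B ≤ #(B \ occ) + #occ := card_le_card_sdiff_add_card
    omega
  calc (n + 1) * 2 ^ n = ∑ r ∈ range (n + 1), 2 ^ n := by rw [sum_const, card_range, smul_eq_mul]
    _ ≤ ∑ r ∈ range (n + 1), 2 * #((emptyBoxes n P).filter fun t => t.1 = r) := sum_le_sum hfib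
    _ = 2 * #(emptyBoxes n P) := by
      rw [← mul_sum, ← card_eq_sum_card_fiberwise]
      intro t ht
      exact (mem_product.1 (mem_filter.1 ht).1).1

theorem integral_boxFun_mul_discrFun {n : ℕ} (P : Fin N → ℝ × ℝ) {t : ℕ × ℕ × ℕ}
    (ht : t ∈ emptyBoxes n P) :
    ∫ q, boxFun n t q * discrFun P q ∂unitMeasure.prod unitMeasure = -(N / (16 * 4 ^ n)) := by
  simp only [emptyBoxes, mem_filter, mem_product, mem_range] at ht
  obtain ⟨⟨hr, -, -⟩, ha, hb, hemp⟩ := ht
  obtain ⟨r, a, b⟩ := t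
  dsimp only at hr ha hb hemp
  have hid : Integrable (fun x : ℝ => x) unitMeasure :=
    (continuous_id.integrableOn_Icc (a := (0 : ℝ)) (b := 1)).mono_set Set.Ico_subset_Icc_self
      |>.integrable
  have hstep : ∀ p : ℝ, Integrable (fun x : ℝ => if p < x then (1 : ℝ) else 0) unitMeasure :=
    fun p => Integrable.of_bound
      (Measurable.ite measurableSet_Ioi measurable_const measurable_const).aestronglyMeasurable 1
      (Filter.Eventually.of_forall fun x => by split_ifs <;> norm_num)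
  have hb1 : ∀ {g : ℝ → ℝ} (k c : ℕ), Integrable g unitMeasure →
      Integrable (fun x => haar k c x * g x) unitMeasure := fun k c hg =>
    hg.bdd_mul (c := 1) (measurable_haar k c).aestronglyMeasurable
      (Filter.Eventually.of_forall fun x => by rw [Real.norm_eq_abs]; exact abs_haar_le k c x)
  have e : ∀ q : ℝ × ℝ, boxFun n (r, a, b) q * discrFun P q =
      (∑ i, (haar r a q.1 * if (P i).1 < q.1 then (1 : ℝ) else 0) *
        (haar (n - r) b q.2 * if (P i).2 < q.2 then 1 else 0)) -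
      N * ((haar r a q.1 * q.1) * (haar (n - r) b q.2 * q.2)) := fun q => by
    rw [discrFun_eq, boxFun, mul_sub, mul_sum]
    congr 1
    · exact sum_congr rfl fun i _ => by ring
    · ring
  simp only [e]
  rw [integral_sub (integrable_finsetSum _ fun i _ =>
      (hb1 r a (hstep _)).mul_prod (hb1 (n - r) b (hstep _)))
      (((hb1 r a hid).mul_prod (hb1 (n - r) b hid)).const_mul _),
    integral_finsetSum _ fun i _ => (hb1 r a (hstep _)).mul_prod (hb1 (n - r) b (hstep _)),
    integral_const_mul,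
    integral_prod_mul (fun x => haar r a x * x) (fun y => haar (n - r) b y * y),
    integral_haar_mul_id ha, integral_haar_mul_id hb, sum_eq_zero fun i _ => ?_]
  · rw [show (4 : ℝ) ^ n = 4 ^ r * 4 ^ (n - r) by rw [← pow_add]; congr 1; omega]
    field_simp
    ring
  · rw [integral_prod_mul (fun x => haar r a x * if (P i).1 < x then (1 : ℝ) else 0)
      (fun y => haar (n - r) b y * if (P i).2 < y then (1 : ℝ) else 0)]
    by_cases h1 : ⌊(P i).1 * 2 ^ r⌋ = (a : ℤ)
    · rw [integral_haar_mul_step hb fun h2 => hemp i ⟨h1, h2⟩, mul_zero]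
    · rw [integral_haar_mul_step ha h1, zero_mul]

theorem integral_boxFun_mul_boxFun {n : ℕ} (P : Fin N → ℝ × ℝ) {t u : ℕ × ℕ × ℕ}
    (ht : t ∈ emptyBoxes n P) (hu : u ∈ emptyBoxes n P) :
    ∫ q, boxFun n t q * boxFun n u q ∂unitMeasure.prod unitMeasure =
      if t = u then 1 / 2 ^ n else 0 := by
  simp only [emptyBoxes, mem_filter, mem_product, mem_range] at ht hu
  obtain ⟨r, a, b⟩ := t
  obtain ⟨s, c, d⟩ := u
  obtain ⟨⟨hr, -, -⟩, ha, hb, -⟩ := ht
  obtain ⟨⟨hs, -, -⟩, hc, hd, -⟩ := hu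
  dsimp only at hr ha hb hs hc hd
  have e : ∀ q : ℝ × ℝ, boxFun n (r, a, b) q * boxFun n (s, c, d) q =
      (haar r a q.1 * haar s c q.1) * (haar (n - r) b q.2 * haar (n - s) d q.2) := fun q => by
    simp only [boxFun]
    ring
  simp only [e]
  rw [integral_prod_mul (fun x => haar r a x * haar s c x)
    (fun y => haar (n - r) b y * haar (n - s) d y)]
  rcases lt_trichotomy r s with hrs | rfl | hrs
  · rw [integral_haar_mul_haar hc hrs, zero_mul, if_neg (by simp; omega)]
  · split_ifs with heq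
    · simp only [Prod.mk.injEq, true_and] at heq
      obtain ⟨rfl, rfl⟩ := heq
      simp only [← sq]
      rw [integral_haar_sq ha, integral_haar_sq hb,
        show (2 : ℝ) ^ n = 2 ^ r * 2 ^ (n - r) by rw [← pow_add]; congr 1; omega]
      field_simp
    · simp only [Prod.mk.injEq, true_and] at heq
      by_cases hac : a = c
      · simp only [haar_mul_haar_same (fun hbd => heq ⟨hac, hbd⟩), integral_zero, mul_zero]
      · simp only [haar_mul_haar_same hac, integral_zero, zero_mul]
  · simp only [mul_comm (haar r a _)]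
    rw [integral_haar_mul_haar ha hrs, zero_mul, if_neg (by simp; omega)]

theorem measurable_discrFun (P : Fin N → ℝ × ℝ) : Measurable (discrFun P) := by
  have e : discrFun P = fun q => (∑ i, (if (P i).1 < q.1 then (1 : ℝ) else 0) *
      (if (P i).2 < q.2 then 1 else 0)) - N * (q.1 * q.2) := funext (discrFun_eq P)
  rw [e]
  refine (Finset.measurable_sum _ fun i _ => ?_).sub (by fun_prop)
  exact (Measurable.ite (measurableSet_lt measurable_const measurable_fst) measurable_const
    measurable_const).mul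
      (Measurable.ite (measurableSet_lt measurable_const measurable_snd) measurable_const
        measurable_const)

theorem integrable_discrFun_sq (P : Fin N → ℝ × ℝ) :
    Integrable (fun q => discrFun P q ^ 2) (unitMeasure.prod unitMeasure) := by
  have hae : ∀ᵐ q ∂unitMeasure.prod unitMeasure, q ∈ Set.Ico (0 : ℝ) 1 ×ˢ Set.Ico (0 : ℝ) 1 := by
    rw [unitMeasure, Measure.prod_restrict]
    exact ae_restrict_mem (measurableSet_Ico.prod measurableSet_Ico)
  refine Integrable.of_bound ((measurable_discrFun P).pow_const 2).aestronglyMeasurable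
    ((N : ℝ) ^ 2) ?_
  filter_upwards [hae] with q hq
  rw [Real.norm_eq_abs, abs_pow, sq_abs]
  obtain ⟨⟨h1, h2⟩, h3, h4⟩ := hq
  have hc : (#(univ.filter fun i => (P i).1 < q.1 ∧ (P i).2 < q.2) : ℝ) ≤ N := by
    exact_mod_cast (card_filter_le _ _).trans_eq (by simp)
  have hp : 0 ≤ (N : ℝ) * q.1 * q.2 := by positivity
  have hp1 : (N : ℝ) * q.1 * q.2 ≤ N := by
    rw [mul_assoc]
    exact mul_le_of_le_one_right (Nat.cast_nonneg N)
      (mul_le_one₀ h2.le h3 h4.le)
  rw [← sq_abs (discrFun P q)]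
  refine pow_le_pow_left₀ (abs_nonneg _) (abs_le.2 ⟨?_, ?_⟩) 2 <;>
    simp only [discrFun] <;>
    linarith [(Nat.cast_nonneg (#(univ.filter fun i => (P i).1 < q.1 ∧ (P i).2 < q.2)) : (0:ℝ) ≤ _)]

/-- **Roth's theorem**, in square mean. -/
theorem log_le_integral_sq (hN : 0 < N) (P : Fin N → ℝ × ℝ) :
    Real.log N / 8192 ≤ ∫ q, discrFun P q ^ 2 ∂unitMeasure.prod unitMeasure := by
  classical
  set ν := unitMeasure.prod unitMeasure
  set n := Nat.log 2 N + 2 with hn
  have hn1 : 2 * N ≤ 2 ^ n := by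
    have := Nat.lt_pow_succ_log_self one_lt_two N
    rw [Nat.succ_eq_add_one, pow_succ] at this
    rw [hn, pow_add]
    omega
  have hn2 : 2 ^ n ≤ 4 * N := by
    have := Nat.pow_log_le_self 2 hN.ne'
    rw [hn, pow_add]
    omega
  set T := emptyBoxes n P
  set lam : ℝ := N / (16 * 2 ^ n) with hlam
  have hbox : ∀ t, Measurable (boxFun n t) := fun t =>
    ((measurable_haar _ _).comp measurable_fst).mul ((measurable_haar _ _).comp measurable_snd)
  have hbb : ∀ t q, ‖boxFun n t q‖ ≤ 1 := fun t q => by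
    rw [Real.norm_eq_abs, boxFun, abs_mul]
    exact mul_le_one₀ (abs_haar_le _ _ _) (abs_nonneg _) (abs_haar_le _ _ _)
  have hD2 := integrable_discrFun_sq P
  have hD : Integrable (discrFun P) ν :=
    (memLp_two_iff_integrable_sq (measurable_discrFun P).aestronglyMeasurable).2 hD2
      |>.integrable one_le_two
  have hBD : ∀ t, Integrable (fun q => boxFun n t q * discrFun P q) ν := fun t =>
    hD.bdd_mul (c := 1) (hbox t).aestronglyMeasurable (Filter.Eventually.of_forall (hbb t))
  have hBB : ∀ t u, Integrable (fun q => boxFun n t q * boxFun n u q) ν := fun t u =>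
    Integrable.of_bound ((hbox t).mul (hbox u)).aestronglyMeasurable 1
      (Filter.Eventually.of_forall fun q => by
        rw [norm_mul]
        exact mul_le_one₀ (hbb t q) (norm_nonneg _) (hbb u q))
  have hexp : ∀ q, (discrFun P q + lam * ∑ t ∈ T, boxFun n t q) ^ 2 = discrFun P q ^ 2 +
      2 * lam * (∑ t ∈ T, boxFun n t q * discrFun P q) +
      lam ^ 2 * ∑ t ∈ T, ∑ u ∈ T, boxFun n t q * boxFun n u q := fun q => by
    rw [← sum_mul, ← sum_mul_sum]
    ring
  have h0 : 0 ≤ ∫ q, (discrFun P q + lam * ∑ t ∈ T, boxFun n t q) ^ 2 ∂ν :=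
    integral_nonneg fun q => sq_nonneg _
  have e1 : ∑ t ∈ T, ∫ q, boxFun n t q * discrFun P q ∂ν = #T * -((N : ℝ) / (16 * 4 ^ n)) := by
    rw [sum_congr rfl fun t ht => integral_boxFun_mul_discrFun P ht, sum_const, nsmul_eq_mul]
  have e2 : ∑ t ∈ T, ∫ q, ∑ u ∈ T, boxFun n t q * boxFun n u q ∂ν = #T * (1 / (2 : ℝ) ^ n) := by
    rw [← nsmul_eq_mul, ← sum_const]
    refine sum_congr rfl fun t ht => ?_
    rw [integral_finsetSum _ fun u _ => hBB t u,
      sum_congr rfl fun u hu => integral_boxFun_mul_boxFun P ht hu, sum_ite_eq, if_pos ht]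
  simp only [hexp] at h0
  rw [integral_add (hD2.fun_add ((integrable_finsetSum _ fun t _ => hBD t).const_mul _))
      ((integrable_finsetSum _ fun t _ => integrable_finsetSum _ fun u _ => hBB t u).const_mul _),
    integral_add hD2 ((integrable_finsetSum _ fun t _ => hBD t).const_mul _),
    integral_const_mul, integral_const_mul, integral_finsetSum _ fun t _ => hBD t,
    integral_finsetSum _ fun t _ => integrable_finsetSum _ fun u _ => hBB t u, e1, e2] at h0
  set I := ∫ q, discrFun P q ^ 2 ∂ν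
  have hT : ((n : ℝ) + 1) * 2 ^ n ≤ 2 * (#T : ℝ) := by
    exact_mod_cast card_emptyBoxes_ge hn1 P
  have hq : (1 : ℝ) / 4 ≤ N / 2 ^ n := by
    rw [div_le_div_iff₀ (by norm_num) (by positivity)]
    exact_mod_cast (by omega : 1 * 2 ^ n ≤ N * 4)
  have h1 : (#T : ℝ) / 2 ^ n * (N / 2 ^ n) ^ 2 / 256 ≤ I := by
    have e : (4 : ℝ) ^ n = 2 ^ n * 2 ^ n := by rw [← mul_pow]; norm_num
    have : 2 * lam * ((#T : ℝ) * -(N / (16 * 4 ^ n))) + lam ^ 2 * ((#T : ℝ) * (1 / 2 ^ n)) =
        -((#T : ℝ) / 2 ^ n * (N / 2 ^ n) ^ 2 / 256) := by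
      rw [hlam, e]
      field_simp
      ring
    linarith
  have hlog : Real.log N ≤ (n : ℝ) + 1 := by
    have h3 : (N : ℝ) ≤ 2 ^ n := by exact_mod_cast (by omega : N ≤ 2 ^ n)
    refine ((Real.log_le_log (Nat.cast_pos.2 hN) h3).trans (le_of_eq (Real.log_pow 2 n))).trans ?_
    nlinarith [Real.log_two_lt_d9, (n.cast_nonneg : (0 : ℝ) ≤ n)]
  refine le_trans ?_ h1
  have h4 : ((n : ℝ) + 1) / 2 * (1 / 4) ^ 2 ≤ (#T : ℝ) / 2 ^ n * (N / 2 ^ n) ^ 2 := by
    refine mul_le_mul ?_ (pow_le_pow_left₀ (by norm_num) hq 2) (by positivity) (by positivity)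
    rw [div_le_div_iff₀ two_pos (by positivity)]
    linarith
  linarith

/-- **Roth's theorem.** -/
theorem exists_large_discrFun (hN : 0 < N) (P : Fin N → ℝ × ℝ) :
    ∃ q : ℝ × ℝ, q ∈ Set.Ico (0 : ℝ) 1 ×ˢ Set.Ico (0 : ℝ) 1 ∧
      √(Real.log N) / 100 ≤ |discrFun P q| := by
  by_contra hcon
  push Not at hcon
  have hae : ∀ᵐ q ∂unitMeasure.prod unitMeasure, q ∈ Set.Ico (0 : ℝ) 1 ×ˢ Set.Ico (0 : ℝ) 1 := by
    rw [unitMeasure, Measure.prod_restrict]
    exact ae_restrict_mem (measurableSet_Ico.prod measurableSet_Ico)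
  have hlog : 0 ≤ Real.log N := Real.log_natCast_nonneg N
  have h := (log_le_integral_sq hN P).trans (integral_mono_ae (integrable_discrFun_sq P)
    (integrable_const (Real.log N / 10000)) (by
      filter_upwards [hae] with q hq
      rw [← sq_abs, show Real.log N / 10000 = (√(Real.log N) / 100) ^ 2 by
        rw [div_pow, Real.sq_sqrt hlog]; norm_num]
      exact pow_le_pow_left₀ (abs_nonneg _) (hcon q hq).le 2))
  rw [integral_const, probReal_univ, one_smul] at h
  have h0 : Real.log N = 0 := by linarith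
  have := hcon (0, 0) ⟨⟨le_rfl, one_pos⟩, le_rfl, one_pos⟩
  rw [h0, Real.sqrt_zero, zero_div] at this
  exact not_lt.2 (abs_nonneg _) this

end FA.RothDiscrepancy

end
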