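import Fermat.Agent.RothDiscrepancy.Roth
import Mathlib.Data.Nat.Log

/-!
# No just-distributed sequences, and the van der Corput sequence

The points `(x k, k / N)` turn Roth's bound into one for some initial segment of the sequence.
For the van der Corput sequence the even and the odd indices halve the interval, so each doubling
of `N` adds at most `1 / 2` to the discrepancy.
-/

set_option autoImplicit false

noncomputable section

open Finset Filter

namespace FA.RothDiscrepancy

/-- The error of the count of the first `M` terms below `t`. -/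
def countError (x : ℕ → ℝ) (M : ℕ) (t : ℝ) : ℝ :=
  (#((range M).filter fun k => x k < t) : ℝ) - M * t

theorem abs_countError_le {x : ℕ → ℝ} {M : ℕ} {t : ℝ} (h0 : 0 ≤ t) (h1 : t ≤ 1) :
    |countError x M t| ≤ M := by
  have hc : (#((range M).filter fun k => x k < t) : ℝ) ≤ M := by
    exact_mod_cast (card_filter_le _ _).trans_eq (card_range M)
  have : (M : ℝ) * t ≤ M := mul_le_of_le_one_right M.cast_nonneg h1
  have : 0 ≤ (M : ℝ) * t := by positivity
  have hc0 : (0 : ℝ) ≤ #((range M).filter fun k => x k < t) := Nat.cast_nonneg _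
  rw [countError, abs_le]
  constructor <;> linarith

/-- The discrepancy function of the graph `(x k, k / N)`. -/
theorem discrFun_graph (x : ℕ → ℝ) {N : ℕ} (hN : 0 < N) {t y : ℝ} (ht : t ∈ Set.Ico (0 : ℝ) 1)
    (hy : y ∈ Set.Ico (0 : ℝ) 1) :
    ∃ M ≤ N, ∃ r : ℝ, |r| ≤ 1 ∧
      discrFun (fun i : Fin N => (x i, ((i : ℕ) : ℝ) / N)) (t, y) = countError x M t + r := by
  obtain ⟨hy0, hy1⟩ := hy
  have hN' : (0 : ℝ) < N := Nat.cast_pos.2 hN
  set M := ⌈y * N⌉₊ with hM
  refine ⟨M, Nat.ceil_le.2 (mul_le_of_le_one_left hN'.le hy1.le), t * (M - y * N), ?_, ?_⟩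
  · rw [abs_mul, abs_of_nonneg ht.1]
    refine mul_le_one₀ ht.2.le (abs_nonneg _) (abs_le.2 ⟨?_, ?_⟩)
    · linarith [Nat.le_ceil (y * N)]
    · linarith [Nat.ceil_lt_add_one (by positivity : 0 ≤ y * N)]
  have hcard : #(univ.filter fun i : Fin N => x i < t ∧ ((i : ℕ) : ℝ) / N < y) =
      #((range M).filter fun k => x k < t) := by
    rw [← card_map Fin.valEmbedding]
    congr 1
    ext k
    simp only [Finset.mem_map, mem_filter, mem_univ, true_and, Fin.valEmbedding_apply, mem_range,
      hM, Nat.lt_ceil, ← div_lt_iff₀ hN']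
    constructor
    · rintro ⟨i, ⟨h1, h2⟩, rfl⟩
      exact ⟨h2, h1⟩
    · rintro ⟨h2, h1⟩
      refine ⟨⟨k, ?_⟩, ⟨h1, h2⟩, rfl⟩
      have := (div_lt_iff₀ hN').1 h2
      exact_mod_cast this.trans_le (mul_le_of_le_one_left hN'.le hy1.le)
  rw [discrFun, hcard, countError]
  ring

/-- A large discrepancy of `(x k, k / N)` is one of an initial segment of `x`. -/
theorem exists_segment_of_large (x : ℕ → ℝ) {N : ℕ} (hN : 0 < N) {B : ℝ}
    (h : ∃ q : ℝ × ℝ, q ∈ Set.Ico (0 : ℝ) 1 ×ˢ Set.Ico (0 : ℝ) 1 ∧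
      B ≤ |discrFun (fun i : Fin N => (x i, ((i : ℕ) : ℝ) / N)) q|) :
    ∃ M ≤ N, ∃ t ∈ Set.Ico (0 : ℝ) 1, B - 1 ≤ |countError x M t| := by
  obtain ⟨⟨t, y⟩, ⟨ht, hy⟩, hbig⟩ := h
  obtain ⟨M, hMN, r, hr, e⟩ := discrFun_graph x hN ht hy
  rw [e] at hbig
  exact ⟨M, hMN, t, ht, by linarith [abs_add_le (countError x M t) r]⟩

theorem exists_segment (x : ℕ → ℝ) {N : ℕ} (hN : 0 < N) :
    ∃ M ≤ N, ∃ t ∈ Set.Ico (0 : ℝ) 1, √(Real.log N) / 100 - 1 ≤ |countError x M t| :=
  exists_segment_of_large x hN (exists_large_discrFun hN _)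

/-- **No sequence is just distributed.** -/
theorem frequently_large_countError (x : ℕ → ℝ) :
    ∃ᶠ M : ℕ in atTop, ∃ t ∈ Set.Ico (0 : ℝ) 1, √(Real.log M) / 200 ≤ |countError x M t| := by
  rw [frequently_atTop]
  intro M₀
  have hlim : Tendsto (fun N : ℕ => √(Real.log N)) atTop atTop :=
    Real.tendsto_sqrt_atTop.comp (Real.tendsto_log_atTop.comp tendsto_natCast_atTop_atTop)
  obtain ⟨N, hbig, hN⟩ := ((hlim.eventually (eventually_ge_atTop (200 * ((M₀ : ℝ) + 1)))).and
    (eventually_gt_atTop 0)).exists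
  obtain ⟨M, hMN, t, ht, h⟩ := exists_segment x hN
  have h1 : (M₀ : ℝ) + 1 ≤ |countError x M t| := by
    linarith [(M₀.cast_nonneg : (0 : ℝ) ≤ M₀)]
  have h2 := h1.trans (abs_countError_le ht.1 ht.2.le)
  have hM : M₀ ≤ M := by
    have : (M₀ : ℝ) ≤ M := by linarith
    exact_mod_cast this
  refine ⟨M, hM, t, ht, ?_⟩
  have hM0 : (0 : ℝ) < M := lt_of_lt_of_le (by positivity) h2
  have h3 : √(Real.log M) ≤ √(Real.log N) :=
    Real.sqrt_le_sqrt (Real.log_le_log hM0 (Nat.cast_le.2 hMN))
  linarith [(M₀.cast_nonneg : (0 : ℝ) ≤ M₀)]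

/-- The van der Corput sequence: the binary digits mirrored at the point. -/
def vanDerCorput : ℕ → ℝ
  | 0 => 0
  | k + 1 => (((k + 1) % 2 : ℕ) : ℝ) / 2 + vanDerCorput ((k + 1) / 2) / 2
decreasing_by omega

theorem vanDerCorput_eq (k : ℕ) :
    vanDerCorput k = ((k % 2 : ℕ) : ℝ) / 2 + vanDerCorput (k / 2) / 2 := by
  cases k with
  | zero => simp [vanDerCorput]
  | succ k => rw [vanDerCorput]

theorem vanDerCorput_mem (k : ℕ) : vanDerCorput k ∈ Set.Ico (0 : ℝ) 1 := by
  induction k using Nat.strongRecOn with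
  | _ k ih =>
    rcases Nat.eq_zero_or_pos k with rfl | hk
    · simp [vanDerCorput]
    obtain ⟨h1, h2⟩ := ih (k / 2) (Nat.div_lt_self hk one_lt_two)
    rw [vanDerCorput_eq]
    have h3 : ((k % 2 : ℕ) : ℝ) ≤ 1 :=
      Nat.cast_le_one.2 (Nat.lt_succ_iff.1 (Nat.mod_lt _ two_pos))
    constructor
    · positivity
    · linarith

theorem card_filter_range_split (N : ℕ) (t : ℝ) :
    #((range N).filter fun k => vanDerCorput k < t) =
      #((range ((N + 1) / 2)).filter fun j => vanDerCorput j < 2 * t) +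
        #((range (N / 2)).filter fun j => vanDerCorput j < 2 * t - 1) := by
  induction N with
  | zero => simp
  | succ N ih =>
    rw [card_filter, sum_range_succ, ← card_filter, ih, vanDerCorput_eq N]
    rcases Nat.even_or_odd' N with ⟨m, rfl | rfl⟩
    · rw [show (2 * m + 1 + 1) / 2 = m + 1 by omega, show (2 * m + 1) / 2 = m by omega,
        show 2 * m / 2 = m by omega, Nat.mul_mod_right,
        card_filter (p := fun j => vanDerCorput j < 2 * t)
        (s := range (m + 1)), sum_range_succ, ← card_filter]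
      have : ((0 : ℕ) : ℝ) / 2 + vanDerCorput m / 2 < t ↔ vanDerCorput m < 2 * t := by
        push_cast
        constructor <;> intro h <;> linarith
      simp only [this]
      ring
    · rw [show (2 * m + 1 + 1 + 1) / 2 = m + 1 by omega, show (2 * m + 1 + 1) / 2 = m + 1 by omega,
        show (2 * m + 1) / 2 = m by omega, show (2 * m + 1) % 2 = 1 by omega,
        card_filter (p := fun j => vanDerCorput j < 2 * t - 1) (s := range (m + 1)),
        sum_range_succ, ← card_filter]
      have : ((1 : ℕ) : ℝ) / 2 + vanDerCorput m / 2 < t ↔ vanDerCorput m < 2 * t - 1 := by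
        push_cast
        constructor <;> intro h <;> linarith
      simp only [this]
      ring

/-- **The van der Corput sequence has discrepancy `O (log N)`.** -/
theorem abs_countError_vanDerCorput_le : ∀ (N : ℕ) (t : ℝ), 0 ≤ t → t ≤ 1 →
    |countError vanDerCorput N t| ≤ 1 + (Nat.clog 2 N : ℝ) / 2 := by
  intro N
  induction N using Nat.strongRecOn with
  | _ N ih =>
    intro t h0 h1
    rcases Nat.lt_or_ge N 2 with hN | hN
    · refine (abs_countError_le h0 h1).trans ?_
      have : (N : ℝ) ≤ 1 := by exact_mod_cast Nat.lt_succ_iff.1 hN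
      linarith [((Nat.clog 2 N).cast_nonneg : (0 : ℝ) ≤ _)]
    set p := (N + 1) / 2 with hp
    set q := N / 2 with hq
    have hsum : (p : ℝ) + q = N := by exact_mod_cast (by omega : p + q = N)
    have hdiff : (q : ℝ) ≤ p ∧ (p : ℝ) ≤ q + 1 :=
      ⟨by exact_mod_cast (by omega : q ≤ p), by exact_mod_cast (by omega : p ≤ q + 1)⟩
    have hclog : (Nat.clog 2 N : ℝ) = Nat.clog 2 p + 1 := by
      rw [Nat.clog_of_two_le one_lt_two hN, hp]
      push_cast
      rfl
    have hmono : (Nat.clog 2 q : ℝ) ≤ Nat.clog 2 p :=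
      Nat.cast_le.2 (Nat.clog_mono_right 2 (by omega))
    have hlo : ∀ j, ¬vanDerCorput j < 0 := fun j => not_lt.2 (vanDerCorput_mem j).1
    rw [countError, card_filter_range_split, ← hp, ← hq]
    rcases le_total (2 * t) 1 with ht | ht
    · have hzero : #((range q).filter fun j => vanDerCorput j < 2 * t - 1) = 0 := by
        rw [card_eq_zero, filter_eq_empty_iff]
        exact fun j _ h => hlo j (h.trans_le (by linarith))
      have h := ih p (by omega) (2 * t) (by linarith) ht
      rw [countError] at h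
      rw [hzero, Nat.add_zero]
      rw [show (#((range p).filter fun j => vanDerCorput j < 2 * t) : ℝ) - N * t =
        ((#((range p).filter fun j => vanDerCorput j < 2 * t) : ℝ) - p * (2 * t)) +
          ((p : ℝ) - q) * t by rw [← hsum]; ring]
      refine (abs_add_le _ _).trans ?_
      rw [abs_of_nonneg (a := ((p : ℝ) - q) * t) (mul_nonneg (by linarith) h0), hclog]
      nlinarith
    · have hall : #((range p).filter fun j => vanDerCorput j < 2 * t) = p := by
        rw [filter_true_of_mem fun j _ => (vanDerCorput_mem j).2.trans_le ht, card_range]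
      have h := ih q (by omega) (2 * t - 1) (by linarith) (by linarith)
      rw [countError] at h
      rw [hall, Nat.cast_add]
      rw [show (p : ℝ) + #((range q).filter fun j => vanDerCorput j < 2 * t - 1) - N * t =
        ((#((range q).filter fun j => vanDerCorput j < 2 * t - 1) : ℝ) - q * (2 * t - 1)) +
          ((p : ℝ) - q) * (1 - t) by rw [← hsum]; ring]
      refine (abs_add_le _ _).trans ?_
      rw [abs_of_nonneg (a := ((p : ℝ) - q) * (1 - t)) (mul_nonneg (by linarith) (by linarith)),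
        hclog]
      nlinarith

theorem abs_countError_vanDerCorput_le_log {N : ℕ} (hN : 2 ≤ N) {t : ℝ} (h0 : 0 ≤ t)
    (h1 : t ≤ 1) : |countError vanDerCorput N t| ≤ 4 * Real.log N := by
  refine (abs_countError_vanDerCorput_le N t h0 h1).trans ?_
  have h := Nat.pow_pred_clog_lt_self one_lt_two (show 1 < N by omega)
  have hpos : 1 ≤ Nat.clog 2 N := Nat.clog_pos one_lt_two hN
  set c := Nat.clog 2 N
  have h2 : ((c - 1 : ℕ) : ℝ) * Real.log 2 ≤ Real.log N := by
    rw [← Real.log_pow]
    exact Real.log_le_log (by positivity) (by exact_mod_cast h.le)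
  have h3 : Real.log 2 ≤ Real.log N :=
    Real.log_le_log two_pos (by exact_mod_cast hN)
  rw [Nat.cast_sub hpos] at h2
  push_cast at h2
  nlinarith [Real.log_two_gt_d9, (c.cast_nonneg : (0 : ℝ) ≤ c)]

end FA.RothDiscrepancy

end
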